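/-
S29 / Program A, package (2) "descent of the Kummer class to the small constant field",
route DESC-STEP (helper7): BASE CHANGE OF THE CONSTANT FIELD for Laurent-series function fields.

For fields `K ⊆ L` (both `ℚ`-algebras, compatible) and `F₀ ≤ ℚ((q))`:
* `bc K L F₀ : laurentBaseChange K F₀ →+* laurentBaseChange L F₀`, the coefficientwise map;
* `coe_bc`, `bc_algebraMap`, `bc_injective`;
* `bc_bc` (transitivity along a tower `K ⊆ M ⊆ L`).
-/
import Mathlib
import Fermat.Prelude.Def_ModularCurve_LaurentCoeff

set_option autoImplicit false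
set_option linter.unusedSectionVars false

noncomputable section

namespace Fermat.Agent.S29.H7

open ModularCurve HahnSeries IntermediateField

section BC

variable (K L : Type*) [Field K] [Field L] [Algebra ℚ K] [Algebra ℚ L] [Algebra K L]
  [IsScalarTower ℚ K L] (F₀ : IntermediateField ℚ (LaurentSeries ℚ))

theorem coeffMap_algebraMap_const (a : K) :
    coeffMap (algebraMap K L) (algebraMap K (LaurentSeries K) a)
      = algebraMap L (LaurentSeries L) (algebraMap K L a) := by
  rw [algebraMap_laurentSeries_eq_single, algebraMap_laurentSeries_eq_single, coeffMap_single]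

theorem coeffMap_coeffEmb_tower (z : LaurentSeries ℚ) :
    coeffMap (algebraMap K L) (coeffEmb K z) = coeffEmb L z := by
  rw [coeffEmb, coeffMap_coeffMap, coeffEmb]
  exact coeffMap_congr (IsScalarTower.algebraMap_eq ℚ K L).symm z

theorem coeffMap_injective_of_field : Function.Injective (coeffMap (algebraMap K L)) := by
  intro x y h
  ext n
  have := congrArg (fun z => z.coeff n) h
  simp only [coeffMap_coeff] at this
  exact (algebraMap K L).injective this

variable {K F₀} in
theorem coeffMap_mem_lbc {x : LaurentSeries K} (hx : x ∈ laurentBaseChange K F₀) :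
    coeffMap (algebraMap K L) x ∈ laurentBaseChange L F₀ := by
  rw [mem_laurentBaseChange_iff] at hx
  induction hx using Subfield.closure_induction with
  | mem y hy =>
      rcases hy with ⟨a, rfl⟩ | ⟨z, hz, rfl⟩
      · rw [coeffMap_algebraMap_const]
        exact (laurentBaseChange L F₀).algebraMap_mem _
      · rw [coeffMap_coeffEmb_tower]
        exact coeffEmb_mem_laurentBaseChange L hz
  | one => simp
  | add x y _ _ hx hy => simpa using add_mem hx hy
  | neg x _ hx => simpa using neg_mem hx
  | inv x _ hx => simpa using inv_mem hx
  | mul x y _ _ hx hy => simpa using mul_mem hx hy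

/-- **Base change of the constant field**, coefficientwise. -/
def bc : laurentBaseChange K F₀ →+* laurentBaseChange L F₀ where
  toFun x := ⟨coeffMap (algebraMap K L) x, coeffMap_mem_lbc L x.2⟩
  map_one' := Subtype.ext (by simp)
  map_mul' x y := Subtype.ext (by simp)
  map_zero' := Subtype.ext (by simp)
  map_add' x y := Subtype.ext (by simp)

@[simp]
theorem coe_bc (x : laurentBaseChange K F₀) :
    ((bc K L F₀ x : laurentBaseChange L F₀) : LaurentSeries L)
      = coeffMap (algebraMap K L) (x : LaurentSeries K) := rfl

theorem bc_algebraMap (a : K) :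
    bc K L F₀ (algebraMap K (laurentBaseChange K F₀) a)
      = algebraMap L (laurentBaseChange L F₀) (algebraMap K L a) := by
  apply Subtype.ext
  rw [coe_bc]
  exact coeffMap_algebraMap_const K L a

theorem bc_injective : Function.Injective (bc K L F₀) :=
  (bc K L F₀).injective

end BC

section Tower

variable (K M L : Type*) [Field K] [Field M] [Field L] [Algebra ℚ K] [Algebra ℚ M] [Algebra ℚ L]
  [Algebra K M] [Algebra M L] [Algebra K L] [IsScalarTower ℚ K M] [IsScalarTower ℚ M L]
  [IsScalarTower ℚ K L] [IsScalarTower K M L] (F₀ : IntermediateField ℚ (LaurentSeries ℚ))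

theorem bc_bc (x : laurentBaseChange K F₀) :
    bc M L F₀ (bc K M F₀ x) = bc K L F₀ x := by
  apply Subtype.ext
  rw [coe_bc, coe_bc, coe_bc, coeffMap_coeffMap]
  exact coeffMap_congr (IsScalarTower.algebraMap_eq K M L).symm _

end Tower

end Fermat.Agent.S29.H7
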