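/-
S29 / Program A, package (2) "descent of the Kummer class to the small constant field",
route DESC-STEP (helper7): DEFINITIONS (final).

* `ValData K L A` : `A` is a valuation subring of `L ⊇ K` containing `K`, with residue field `K`,
  nontrivial and of rank one.
* `ConstExt K L β` : `β : E → Ω` exhibits the field `Ω ⊇ L` as the constant field extension of the
  function field `E ⊇ K` (`E` and `L` linearly disjoint over `K`, `Ω = Frac (E · L)`).
* `GaussData β A O res` : `O` is the Gauss valuation ring of `Ω` for the valuation `A` of `L`, with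
  residue map `res : O → E`.
-/
import Mathlib

set_option autoImplicit false

noncomputable section

namespace Fermat.Agent.S29.H7

/-- A valuation subring `A` of `L` containing `K`, with residue field `K`, nontrivial and of rank
one. -/
structure ValData (K L : Type*) [Field K] [Field L] [Algebra K L] (A : ValuationSubring L) :
    Prop where
  const_mem : ∀ k : K, algebraMap K L k ∈ A
  res : ∀ a ∈ A, ∃ k : K, a - algebraMap K L k ∈ A.nonunits
  ne_top : A ≠ ⊤
  arch : ∀ a c : L, a ∈ A.nonunits → c ≠ 0 → ∃ n : ℕ, a ^ n * c⁻¹ ∈ A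

section

variable (K L : Type*) {E Ω : Type*} [Field K] [Field L] [Field E] [Field Ω]
  [Algebra K L] [Algebra K E] [Algebra L Ω]

/-- `β : E → Ω` exhibits `Ω / L` as the constant field extension of `E / K`. -/
structure ConstExt (β : E →+* Ω) : Prop where
  map_const : ∀ k : K, β (algebraMap K E k) = algebraMap L Ω (algebraMap K L k)
  ld : ∀ (n : ℕ) (e : Fin n → E), LinearIndependent K e →
    LinearIndependent L (fun i => β (e i))
  gen : ∀ ω : Ω, ∃ (n : ℕ) (a b : Fin n → L) (e : Fin n → E),
    (∑ i, algebraMap L Ω (b i) * β (e i)) ≠ 0 ∧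
    ω * ∑ i, algebraMap L Ω (b i) * β (e i) = ∑ i, algebraMap L Ω (a i) * β (e i)

variable {K L}

/-- The Gauss valuation ring `O` of `Ω` for the valuation `A` of `L`, with its residue map onto
`E`. -/
structure GaussData (β : E →+* Ω) (A : ValuationSubring L) (O : ValuationSubring Ω)
    (res : ↥O →+* E) : Prop where
  mem_iff : ∀ a : L, algebraMap L Ω a ∈ O ↔ a ∈ A
  scale : ∀ f : Ω, f ≠ 0 → ∃ c : L, c ≠ 0 ∧
    algebraMap L Ω c * f ∈ O ∧ (algebraMap L Ω c * f)⁻¹ ∈ O
  res_eq_zero : ∀ f : ↥O, res f = 0 ↔ (f : Ω) ∈ O.nonunits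
  map_mem : ∀ g : E, β g ∈ O
  res_map : ∀ (g : E) (h : β g ∈ O), res ⟨_, h⟩ = g

end

end Fermat.Agent.S29.H7
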