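/-
S29 / Program A, package (2) "descent of the Kummer class to the small constant field",
route DESC (helper7): THE STEP, abstract and hypothesis-driven (sorry-free).

`desc_step'` : `Ω / L` a function field containing (via `β`) the function field `E / K`; `A` a
rank-one valuation of `L` with `K ⊆ A` and residue field `K`; `O` the Gauss ring of `Ω` with
residue map `res : O → E`.  Hypotheses (each supplied by a separate leaf):
* `hsetup`  : `(L, A, Ω, O, β x)` is an `H74.Setup` for every non-constant `x ∈ E`;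
* `hlift`   : over every place `Q` of `E` lies exactly one place of `Ω` (unramified);
* `hrestr`  : every place of `Ω` is trivial on `E` or lies over a place of `E`;
* `hsep`    : separating functions on `E`.
Conclusion: if `m ∣ ord_P u` at every place `P` of `Ω` NOT lying over a place of a finite set `S`
of places of `E` (the cusps), then `u = c * β u₀ * w ^ m` with `u₀ ∈ E`.

Proof: scale `u` to a unit of `O`; `ū := res u`; `y := u / β ū` is a one-unit.  For every place
`Q` of `T := supp(div ū) ∪ S` take `x ∈ E` with a zero at `Q` and no zero at the other places of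
`T`; the landed `H18.sum_ord_eq_zero_of_oneUnit` on the residue disc of `0` of `β x` shows
`m ∣ ord y` at the place over `Q` (the other places of the disc do not lie over `T`, and there
`ord y = ord u`).  So `m ∣ ord_P y` everywhere and the landed abstract Theorem T
(`H74.absT_of_setup_general`) gives `y = w ^ m`.
-/
import Fermat.Agent.S29.H7.Defs
import Fermat.Prelude.Def_AlgebraicCurve_DivisorClassGroup
import Fermat.Agent.S18.H74.Exports
import Fermat.Agent.S18.H18.OneUnitLeaf
import Fermat.Agent.S18.H85.BasisOfRes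
import Fermat.Agent.S18.H42.FiniteOrd
import Fermat.Agent.S18.H38.Exports
import Fermat.Agent.S24.Residue
import Fermat.Agent.S24.Ord

set_option autoImplicit false
set_option linter.unusedSectionVars false
set_option linter.style.haveILetI false

noncomputable section

namespace Fermat.Agent.S29.H7

open AlgebraicCurve IntermediateField

variable {K L E Ω : Type*} [Field K] [Field L] [Field E] [Field Ω]
  [Algebra K L] [Algebra K E] [Algebra L Ω] {β : E →+* Ω}

theorem ValData.const_unit {A : ValuationSubring L} (hV : ValData K L A) {k : K} (hk : k ≠ 0) :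
    algebraMap K L k ∉ A.nonunits := by
  rw [ValuationSubring.mem_nonunits_iff_or]
  push Not
  refine ⟨by simpa using hk, ?_⟩
  rw [← map_inv₀]
  exact hV.const_mem _

theorem ValData.natCast_inv_mem [CharZero K] {A : ValuationSubring L} (hV : ValData K L A)
    (m : ℕ) : ((m : L))⁻¹ ∈ A := by
  have := hV.const_mem ((m : K)⁻¹)
  rwa [map_inv₀, map_natCast] at this

/-- A function with a zero at a place is transcendental over the algebraically closed constant
field. -/
theorem transcendental_of_ord_pos [IsAlgClosed K] (Q : Place K E) {x : E} (hx : 0 < Q.ord x) :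
    Transcendental K x := by
  intro halg
  have hint : IsIntegral K x := halg.isIntegral
  have hdeg := IsAlgClosed.degree_eq_one_of_irreducible K (minpoly.irreducible hint)
  obtain ⟨k, hk⟩ := minpoly.mem_range_of_degree_eq_one K x hdeg
  rw [← hk] at hx
  by_cases hk0 : k = 0
  · rw [hk0, map_zero, Place.ord_zero] at hx
    exact lt_irrefl _ hx
  · rw [S24.ord_algebraMap Q hk0] at hx
    exact lt_irrefl _ hx

/-- **The step of the descent, abstract form.** -/
theorem desc_step' [IsAlgClosed K] [IsAlgClosed L] [CharZero K]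
    (hconst : ∀ k : K, β (algebraMap K E k) = algebraMap L Ω (algebraMap K L k))
    (hfin : ∃ x₁ : E, Transcendental K x₁ ∧ FiniteDimensional K⟮x₁⟯ E)
    {A : ValuationSubring L} (hV : ValData K L A)
    {O : ValuationSubring Ω} {res : ↥O →+* E} (hG : GaussData β A O res)
    (hsetup : ∀ x : E, Transcendental K x → FiniteDimensional K⟮x⟯ E →
      S18.H74.Setup L A Ω O (β x))
    (hlift : ∀ Q : Place K E, ∃ P : Place L Ω, (∀ f : E, P.ord (β f) = Q.ord f) ∧
      ∀ P' : Place L Ω, (∀ f : E, P'.ord (β f) = Q.ord f) → P' = P)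
    (hrestr : ∀ P : Place L Ω, (∀ f : E, P.ord (β f) = 0) ∨
      ∃ Q : Place K E, ∀ f : E, P.ord (β f) = Q.ord f)
    (hsep : ∀ (Q₀ : Place K E) (T : Finset (Place K E)), Q₀ ∉ T →
      ∃ x : E, 0 < Q₀.ord x ∧ ∀ Q ∈ T, Q.ord x ≤ 0)
    (m : ℕ) (hm : m ≠ 0) (S : Finset (Place K E)) (u : Ω) (hu : u ≠ 0)
    (hord : ∀ P : Place L Ω, (∀ Q ∈ S, ¬ ∀ f : E, P.ord (β f) = Q.ord f) → (m : ℤ) ∣ P.ord u) :
    ∃ (c : L) (u₀ : E) (w : Ω), c ≠ 0 ∧ u₀ ≠ 0 ∧ u = algebraMap L Ω c * β u₀ * w ^ m := by
  classical
  haveI : CharZero L := charZero_of_injective_algebraMap (algebraMap K L).injective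
  obtain ⟨x₁, hx₁, hfd₁⟩ := hfin
  obtain ⟨c, hc, hcu, hcu'⟩ := hG.scale u hu
  have hc0 : algebraMap L Ω c ≠ 0 := by simpa using hc
  have hu10 : algebraMap L Ω c * u ≠ 0 := mul_ne_zero hc0 hu
  have hu1nu : algebraMap L Ω c * u ∉ O.nonunits := by
    rw [ValuationSubring.mem_nonunits_iff_or]
    push Not
    exact ⟨hu10, hcu'⟩
  obtain ⟨ub, hub⟩ : ∃ ub : E, ub = res ⟨algebraMap L Ω c * u, hcu⟩ := ⟨_, rfl⟩
  have hub0 : ub ≠ 0 := fun h => hu1nu ((hG.res_eq_zero _).mp (by rw [← hub, h]))
  have hbub := hG.map_mem ub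
  have hbub0 : β ub ≠ 0 := (map_ne_zero β).mpr hub0
  have hbubnu : β ub ∉ O.nonunits := by
    intro h
    have := (hG.res_eq_zero ⟨β ub, hbub⟩).mpr h
    rw [hG.res_map] at this
    exact hub0 this
  obtain ⟨-, hbubinv⟩ := S18.H85.inv_mem_of_not_nonunits O hbubnu
  obtain ⟨y, hy⟩ : ∃ y : Ω, y = algebraMap L Ω c * u * (β ub)⁻¹ := ⟨_, rfl⟩
  have hyO : y ∈ O := by rw [hy]; exact O.mul_mem _ _ hcu hbubinv
  have hy1 : y - 1 ∈ O.nonunits := by
    have h1 : res ⟨y, hyO⟩ = 1 := by
      have h0 : (⟨y, hyO⟩ : ↥O) = ⟨algebraMap L Ω c * u, hcu⟩ * ⟨(β ub)⁻¹, hbubinv⟩ :=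
        Subtype.ext hy
      rw [h0, map_mul, S18.H85.phi_inv O res (β ub) hbub hbubinv, hG.res_map, ← hub]
      exact mul_inv_cancel₀ hub0
    have h2 : res (⟨y, hyO⟩ - 1) = 0 := by rw [map_sub, h1, map_one, sub_self]
    exact (hG.res_eq_zero _).mp h2
  have hordy : ∀ P : Place L Ω, P.ord y = P.ord u - P.ord (β ub) := by
    intro P
    rw [hy, P.ord_mul hu10 (inv_ne_zero hbub0), P.ord_inv, P.ord_mul hc0 hu,
      S24.ord_algebraMap P hc]
    ring
  -- the finite set of bad places of `E`
  obtain ⟨T, hT⟩ : ∃ T : Finset (Place K E), T =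
      (S18.H42.finite_ord_ne_zero x₁ hx₁ hub0).toFinset ∪ S := ⟨_, rfl⟩
  have hTub : ∀ Q : Place K E, Q ∉ T → Q.ord ub = 0 := by
    intro Q hQ
    by_contra h
    exact hQ (by rw [hT]; exact Finset.mem_union_left _ ((Set.Finite.mem_toFinset _).mpr h))
  have hTS : ∀ Q : Place K E, Q ∉ T → Q ∉ S := fun Q hQ hQS =>
    hQ (by rw [hT]; exact Finset.mem_union_right _ hQS)
  -- a place lies over at most one place of `E`
  have huniq : ∀ (P : Place L Ω) (Q Q' : Place K E), (∀ f : E, P.ord (β f) = Q.ord f) →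
      (∀ f : E, P.ord (β f) = Q'.ord f) → Q = Q' := by
    intro P Q Q' h h'
    exact S24.place_ext_of_ord (fun f _ => by rw [← h f, ← h' f])
  -- places which do not lie over `T`
  have hgood : ∀ P : Place L Ω, ((∀ f : E, P.ord (β f) = 0) ∨
      ∃ Q : Place K E, Q ∉ T ∧ ∀ f : E, P.ord (β f) = Q.ord f) → (m : ℤ) ∣ P.ord y := by
    intro P hP
    rw [hordy]
    rcases hP with h | ⟨Q, hQT, hQ⟩
    · rw [h ub, sub_zero]
      refine hord P (fun Q' _ hQ' => ?_)
      obtain ⟨t, ht⟩ := S24.exists_ord_eq_one Q'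
      have := hQ' t
      rw [h t, ht] at this
      exact zero_ne_one this
    · rw [hQ ub, hTub Q hQT, sub_zero]
      refine hord P (fun Q' hQ'S hQ' => ?_)
      have := huniq P Q Q' hQ hQ'
      exact hTS Q hQT (this ▸ hQ'S)
  -- all places
  have hordy' : ∀ P : Place L Ω, (m : ℤ) ∣ P.ord y := by
    intro P
    rcases hrestr P with h | ⟨Q₁, hQ₁⟩
    · exact hgood P (Or.inl h)
    by_cases hQ₁T : Q₁ ∉ T
    · exact hgood P (Or.inr ⟨Q₁, hQ₁T, hQ₁⟩)
    obtain ⟨x, hx0, hxT⟩ := hsep Q₁ (T.erase Q₁) (Finset.notMem_erase _ _)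
    have hxtr : Transcendental K x := transcendental_of_ord_pos Q₁ hx0
    haveI hfdx : FiniteDimensional K⟮x⟯ E :=
      S18.H38.finiteDimensional_adjoin_of_transcendental x₁ hxtr
    have hS := hsetup x hxtr hfdx
    obtain ⟨s, hs1, hs2, hs3⟩ :=
      S18.H18.sum_ord_eq_zero_of_oneUnit hV.ne_top hS 0 A.zero_mem y hy1
    obtain ⟨P₁, hP₁, hP₁u⟩ := hlift Q₁
    have hPP₁ : P = P₁ := hP₁u P hQ₁
    have hother : ∀ P' ∈ s, P' ≠ P → (m : ℤ) ∣ P'.ord y := by
      intro P' hP' hne
      rcases hrestr P' with h | ⟨Q', hQ'⟩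
      · exact hgood P' (Or.inl h)
      · refine hgood P' (Or.inr ⟨Q', ?_, hQ'⟩)
        obtain ⟨c', hc'A, hc'P⟩ := hs1 P' hP'
        have hQx : 0 < Q'.ord x := by
          haveI : Algebra.IsAlgebraic K⟮x⟯ E := Algebra.IsAlgebraic.of_finite _ _
          rcases S24.exists_center x Q' with hpole | ⟨k, hk⟩
          · exfalso
            have h1 : P'.ord (β x) < 0 := by
              rw [hQ']
              exact hpole
            exact S24.not_center_of_pole (β x) P' h1 c' hc'P
          · have h1 : 0 < P'.ord (β x - algebraMap L Ω (algebraMap K L k)) := by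
              rw [← hconst, ← map_sub, hQ']
              exact hk
            have h2 : c' = algebraMap K L k := S24.center_unique (β x) P' hc'P h1
            have hk0 : k = 0 := by
              by_contra hk0
              rw [sub_zero, h2] at hc'A
              exact hV.const_unit hk0 hc'A
            rw [hk0, map_zero, sub_zero] at hk
            exact hk
        intro hQ'T
        by_cases hQQ : Q' = Q₁
        · rw [hQQ] at hQ'
          exact hne ((hP₁u P' hQ').trans hPP₁.symm)
        · have := hxT Q' (Finset.mem_erase.mpr ⟨hQQ, hQ'T⟩)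
          omega
    have hsum : ∑ P' ∈ insert P s, P'.ord y = 0 := by
      by_cases hPs : P ∈ s
      · rw [Finset.insert_eq_of_mem hPs]
        exact hs3
      · rw [Finset.sum_insert hPs, hs3, add_zero]
        by_contra h
        refine hPs (hs2 P ⟨0, ?_, ?_⟩ h)
        · rw [sub_zero, ValuationSubring.mem_nonunits_iff_or]
          exact Or.inl rfl
        · rw [map_zero, sub_zero, hQ₁]
          exact hx0
    by_cases hPs : P ∈ s
    · rw [Finset.insert_eq_of_mem hPs, ← Finset.add_sum_erase s _ hPs] at hsum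
      have h1 : P.ord y = -∑ P' ∈ s.erase P, P'.ord y := by linarith
      rw [h1]
      exact (Finset.dvd_sum (fun P' hP' =>
        hother P' (Finset.mem_of_mem_erase hP') (Finset.ne_of_mem_erase hP'))).neg_right
    · rw [Finset.sum_insert hPs] at hsum
      have h1 : P.ord y = -∑ P' ∈ s, P'.ord y := by linarith
      rw [h1]
      exact (Finset.dvd_sum (fun P' hP' =>
        hother P' hP' (fun h => hPs (h ▸ hP')))).neg_right
  -- the abstract Theorem T
  have hS := hsetup x₁ hx₁ hfd₁
  obtain ⟨w, hw⟩ :=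
    S18.H74.absT_of_setup_general hV.ne_top hV.arch hS m hm (hV.natCast_inv_mem m) y hy1 hordy'
  refine ⟨c⁻¹, ub, w, inv_ne_zero hc, hub0, ?_⟩
  rw [← hw, hy, map_inv₀]
  field_simp

end Fermat.Agent.S29.H7
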